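import Mathlib

/-!
The ring of functions on the upper half plane whose cusp function (for a period `h`) is analytic
at `0`, and the `q`-expansion ring homomorphism on it.
-/

open UpperHalfPlane
open scoped Manifold

namespace Fermat.Agent.S22T

/-- Functions `ℍ → ℂ` whose cusp function with respect to the period `h` is analytic at `0`. -/
def analyticSubring (h : ℝ) : Subring (ℍ → ℂ) where
  carrier := {F | AnalyticAt ℂ (cuspFunction h F) 0}
  mul_mem' {f g} hf hg := by
    simp only [Set.mem_ofPred_eq] at hf hg ⊢
    rw [cuspFunction_mul hf.continuousAt hg.continuousAt]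
    exact hf.mul hg
  one_mem' := by
    simp only [Set.mem_ofPred_eq]
    have h1 : cuspFunction h 1 = 1 := by
      ext q
      rcases eq_or_ne q 0 with rfl | hq
      · simpa [cuspFunction, Function.Periodic.cuspFunction] using!
          tendsto_const_nhds.limUnder_eq
      · simp [cuspFunction, Function.Periodic.cuspFunction_eq_of_nonzero h _ hq]
    rw [h1]
    exact analyticAt_const
  add_mem' {f g} hf hg := by
    simp only [Set.mem_ofPred_eq] at hf hg ⊢
    rw [cuspFunction_add hf.continuousAt hg.continuousAt]
    exact hf.add hg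
  zero_mem' := by
    simp only [Set.mem_ofPred_eq]
    have h0 : cuspFunction h 0 = 0 := by
      ext q
      rcases eq_or_ne q 0 with rfl | hq
      · simpa [cuspFunction, Function.Periodic.cuspFunction] using!
          tendsto_const_nhds.limUnder_eq
      · simp [cuspFunction, Function.Periodic.cuspFunction_eq_of_nonzero h _ hq]
    rw [h0]
    exact analyticAt_const
  neg_mem' {f} hf := by
    simp only [Set.mem_ofPred_eq] at hf ⊢
    rw [cuspFunction_neg hf.continuousAt]
    exact hf.neg

theorem mem_analyticSubring_iff {h : ℝ} {F : ℍ → ℂ} :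
    F ∈ analyticSubring h ↔ AnalyticAt ℂ (cuspFunction h F) 0 := Iff.rfl

/-- The `q`-expansion, as a ring homomorphism on `analyticSubring h`. -/
noncomputable def qExpHom (h : ℝ) : analyticSubring h →+* PowerSeries ℂ where
  toFun F := qExpansion h (F : ℍ → ℂ)
  map_one' := qExpansion_one h
  map_mul' F G := qExpansion_mul F.2 G.2
  map_zero' := qExpansion_zero h
  map_add' F G := qExpansion_add F.2 G.2

@[simp] theorem qExpHom_apply {h : ℝ} (F : analyticSubring h) :
    qExpHom h F = qExpansion h (F : ℍ → ℂ) := rfl

theorem mem_analyticSubring_of_periodic {h : ℝ} (hh : 0 < h) {F : ℍ → ℂ}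
    (hper : Function.Periodic (F ∘ ofComplex) h) (hhol : MDiff F)
    (hbdd : IsBoundedAtImInfty F) : F ∈ analyticSubring h :=
  analyticAt_cuspFunction_zero hh hper hhol hbdd

theorem smul_mem_analyticSubring {h : ℝ} {F : ℍ → ℂ} (c : ℂ) (hF : F ∈ analyticSubring h) :
    c • F ∈ analyticSubring h := by
  rw [mem_analyticSubring_iff] at hF ⊢
  rw [cuspFunction_smul hF.continuousAt]
  exact hF.const_smul

theorem qExpansion_smul_of_mem {h : ℝ} {F : ℍ → ℂ} (c : ℂ) (hF : F ∈ analyticSubring h) :
    qExpansion h (c • F) = c • qExpansion h F :=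
  qExpansion_smul hF c

end Fermat.Agent.S22T
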