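import Mathlib
import Fermat.Agent.S22T.QExpRing

/-!
Integrality of the `q`-expansion of the modular discriminant.
-/

open UpperHalfPlane ModularForm EisensteinSeries
open scoped MatrixGroups ModularForm Manifold ArithmeticFunction.sigma

namespace Fermat.Agent.S22T

theorem twelve_dvd_aux (d : ℕ) : (12 : ℤ) ∣ 5 * (d : ℤ) ^ 3 + 7 * (d : ℤ) ^ 5 := by
  have h : ∀ x : ZMod 12, 5 * x ^ 3 + 7 * x ^ 5 = 0 := by decide
  have h2 := h (d : ZMod 12)
  have h3 : ((5 * (d : ℤ) ^ 3 + 7 * (d : ℤ) ^ 5 : ℤ) : ZMod 12) = 0 := by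
    push_cast
    exact h2
  exact (ZMod.intCast_zmod_eq_zero_iff_dvd _ 12).mp h3

theorem twelve_dvd_sigma (n : ℕ) : (12 : ℤ) ∣ 5 * (σ 3 n : ℤ) + 7 * (σ 5 n : ℤ) := by
  rw [ArithmeticFunction.sigma_apply, ArithmeticFunction.sigma_apply]
  push_cast
  rw [Finset.mul_sum, Finset.mul_sum, ← Finset.sum_add_distrib]
  exact Finset.dvd_sum fun d _ => twelve_dvd_aux d

/-- `A = ∑_{n ≥ 1} σ₃(n) qⁿ` -/
noncomputable def sigmaSeries (k : ℕ) : PowerSeries ℤ :=
  PowerSeries.mk fun n => if n = 0 then 0 else (σ k n : ℤ)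

/-- `(5A + 7B)/12` -/
noncomputable def cSeries : PowerSeries ℤ :=
  PowerSeries.mk fun n => if n = 0 then 0 else (5 * (σ 3 n : ℤ) + 7 * (σ 5 n : ℤ)) / 12

theorem twelve_mul_cSeries :
    (12 : PowerSeries ℤ) * cSeries = 5 * sigmaSeries 3 + 7 * sigmaSeries 5 := by
  ext n
  have h12 : (12 : PowerSeries ℤ) = PowerSeries.C (12 : ℤ) := by
    rw [map_ofNat]
  have h5 : (5 : PowerSeries ℤ) = PowerSeries.C (5 : ℤ) := by
    rw [map_ofNat]
  have h7 : (7 : PowerSeries ℤ) = PowerSeries.C (7 : ℤ) := by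
    rw [map_ofNat]
  rw [h12, h5, h7, map_add, PowerSeries.coeff_C_mul, PowerSeries.coeff_C_mul,
    PowerSeries.coeff_C_mul]
  simp only [cSeries, sigmaSeries, PowerSeries.coeff_mk]
  split_ifs with hn
  · simp
  · exact Int.mul_ediv_cancel' (twelve_dvd_sigma n)

/-- The integral power series of `Δ`. -/
noncomputable def deltaSeries : PowerSeries ℤ :=
  100 * sigmaSeries 3 ^ 2 + 8000 * sigmaSeries 3 ^ 3 - 147 * sigmaSeries 5 ^ 2 + cSeries

theorem deltaSeries_identity :
    (1 + 240 * sigmaSeries 3) ^ 3 - (1 - 504 * sigmaSeries 5) ^ 2 = 1728 * deltaSeries := by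
  have h := twelve_mul_cSeries
  have : (1728 : PowerSeries ℤ) * cSeries = 144 * ((12 : PowerSeries ℤ) * cSeries) := by ring
  rw [deltaSeries, mul_add, this, h]
  ring

theorem qExpansion_E4 :
    qExpansion 1 (E₄ : ℍ → ℂ) =
      (1 + 240 * sigmaSeries 3 : PowerSeries ℤ).map (Int.castRingHom ℂ) := by
  ext n
  rw [E_qExpansion_coeff _ ⟨2, rfl⟩]
  have hb : bernoulli 4 = -1 / 30 := by decide +kernel
  have h240 : (240 : PowerSeries ℤ) = PowerSeries.C (240 : ℤ) := by rw [map_ofNat]
  rw [PowerSeries.coeff_map, map_add, h240, PowerSeries.coeff_C_mul]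
  simp only [sigmaSeries, PowerSeries.coeff_mk, PowerSeries.coeff_one]
  split_ifs with hn
  · simp
  · simp only [hb]
    push_cast
    norm_num

theorem qExpansion_E6 :
    qExpansion 1 (E₆ : ℍ → ℂ) =
      (1 - 504 * sigmaSeries 5 : PowerSeries ℤ).map (Int.castRingHom ℂ) := by
  ext n
  rw [E_qExpansion_coeff _ ⟨3, rfl⟩]
  have hb : bernoulli 6 = 1 / 42 := by decide +kernel
  have h504 : (504 : PowerSeries ℤ) = PowerSeries.C (504 : ℤ) := by rw [map_ofNat]
  rw [PowerSeries.coeff_map, map_sub, h504, PowerSeries.coeff_C_mul]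
  simp only [sigmaSeries, PowerSeries.coeff_mk, PowerSeries.coeff_one]
  split_ifs with hn
  · simp
  · simp only [hb]
    push_cast
    norm_num

theorem E4_mem : (E₄ : ℍ → ℂ) ∈ analyticSubring 1 :=
  ModularFormClass.analyticAt_cuspFunction_zero E₄ one_pos one_mem_strictPeriods_SL

theorem E6_mem : (E₆ : ℍ → ℂ) ∈ analyticSubring 1 :=
  ModularFormClass.analyticAt_cuspFunction_zero E₆ one_pos one_mem_strictPeriods_SL

theorem discriminant_mem : (ModularForm.discriminant : ℍ → ℂ) ∈ analyticSubring 1 :=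
  ModularFormClass.analyticAt_cuspFunction_zero CuspForm.discriminant one_pos
    one_mem_strictPeriods_SL

/-- The `q`-expansion of `Δ` has integer coefficients, given by `deltaSeries`. -/
theorem qExpansion_discriminant :
    qExpansion 1 (ModularForm.discriminant : ℍ → ℂ) =
      deltaSeries.map (Int.castRingHom ℂ) := by
  -- function identity `1728 Δ = E₄³ - E₆²` inside the subring
  let e4 : analyticSubring 1 := ⟨_, E4_mem⟩
  let e6 : analyticSubring 1 := ⟨_, E6_mem⟩
  let dl : analyticSubring 1 := ⟨_, discriminant_mem⟩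
  have hfun : (1728 : analyticSubring 1) * dl = e4 ^ 3 - e6 ^ 2 := by
    apply Subtype.ext
    funext z
    have := ModularForm.discriminant_eq_E₄_cube_sub_E₆_sq z
    show (1728 : ℂ) * ModularForm.discriminant z = E₄ z ^ 3 - E₆ z ^ 2
    rw [this]
    field_simp
  have hser := congrArg (qExpHom 1) hfun
  rw [map_mul, map_sub, map_pow, map_pow, map_ofNat] at hser
  simp only [qExpHom_apply, e4, e6, dl] at hser
  rw [qExpansion_E4, qExpansion_E6, ← map_pow, ← map_pow, ← map_sub, deltaSeries_identity,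
    map_mul, map_ofNat] at hser
  -- cancel 1728
  ext n
  have := congrArg (PowerSeries.coeff n) hser
  have h1728 : (1728 : PowerSeries ℂ) = PowerSeries.C (1728 : ℂ) := by rw [map_ofNat]
  rw [h1728, PowerSeries.coeff_C_mul, PowerSeries.coeff_C_mul] at this
  exact mul_left_cancel₀ (by norm_num) this

/-- Ramanujan's tau function. -/
noncomputable def tau (n : ℕ) : ℤ := deltaSeries.coeff n

theorem qExpansion_discriminant_coeff (n : ℕ) :
    (qExpansion 1 (ModularForm.discriminant : ℍ → ℂ)).coeff n = (tau n : ℂ) := by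
  rw [qExpansion_discriminant, PowerSeries.coeff_map]
  rfl

theorem tau_one : tau 1 = 1 := by
  have h := qExpansion_discriminant_coeff 1
  rw [ModularForm.discriminant_qExpansion_coeff_one] at h
  exact_mod_cast h.symm

theorem tau_zero : tau 0 = 0 := by
  have h := qExpansion_discriminant_coeff 0
  have h0 := CuspFormClass.qExpansion_coeff_zero CuspForm.discriminant one_pos
    one_mem_strictPeriods_SL
  rw [CuspForm.coe_discriminant] at h0
  rw [h0] at h
  exact_mod_cast h.symm

end Fermat.Agent.S22T
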