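import Mathlib
import Fermat.Agent.S22T.QExpRing

/-!
Re-expansion of a `q`-series along a substitution `𝕢 1 (α z) = ξ * 𝕢 h z ^ e`.
-/

open UpperHalfPlane Function
open scoped Manifold

namespace Fermat.Agent.S22T

local notation "𝕢" => Function.Periodic.qParam

/-- The coefficients of the re-expanded series. -/
noncomputable def expandCoeff (c : ℕ → ℂ) (e : ℕ) (ξ : ℂ) (j : ℕ) : ℂ :=
  if e ∣ j then c (j / e) * ξ ^ (j / e) else 0

theorem hasSum_expand {F : ℍ → ℂ} {c : ℕ → ℂ}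
    (hF : ∀ w : ℍ, HasSum (fun n => c n • 𝕢 1 w ^ n) (F w))
    {h : ℝ} (α : ℍ → ℍ) (e : ℕ) (he : 0 < e) (ξ : ℂ)
    (hα : ∀ z : ℍ, 𝕢 1 (α z) = ξ * 𝕢 h z ^ e) (z : ℍ) :
    HasSum (fun j => expandCoeff c e ξ j • 𝕢 h z ^ j) (F (α z)) := by
  have h1 := hF (α z)
  have hinj : Function.Injective (fun n : ℕ => e * n) := fun a b hab =>
    Nat.eq_of_mul_eq_mul_left he hab
  rw [← hinj.hasSum_iff]
  · convert h1 using 1
    funext n
    simp only [Function.comp_apply, expandCoeff, dvd_mul_right, if_true,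
      Nat.mul_div_cancel_left n he, smul_eq_mul]
    rw [hα z, mul_pow, ← pow_mul]
    ring
  · intro j hj
    have : ¬ e ∣ j := by
      rintro ⟨n, rfl⟩
      exact hj ⟨n, rfl⟩
    simp [expandCoeff, this]

theorem qParam_add_period {h : ℝ} (hh : h ≠ 0) (w : ℂ) : 𝕢 h (w + h) = 𝕢 h w := by
  have hh' : (h : ℂ) ≠ 0 := by exact_mod_cast hh
  simp only [Function.Periodic.qParam]
  rw [show 2 * (Real.pi : ℂ) * Complex.I * (w + h) / h
      = 2 * Real.pi * Complex.I * w / h + 2 * Real.pi * Complex.I by field_simp]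
  rw [Complex.exp_add, Complex.exp_two_pi_mul_I, mul_one]

theorem periodic_of_hasSum {G : ℍ → ℂ} {c : ℕ → ℂ} {h : ℝ} (hh : h ≠ 0)
    (hG : ∀ z : ℍ, HasSum (fun j => c j • 𝕢 h z ^ j) (G z)) :
    Function.Periodic (G ∘ ofComplex) h := by
  intro w
  by_cases! hw : 0 < Complex.im w
  · have hw' : 0 < Complex.im (w + h) := by simp [hw]
    simp only [comp_apply, ofComplex_apply_of_im_pos hw', ofComplex_apply_of_im_pos hw]
    have e1 := hG ⟨w + h, hw'⟩
    have e2 := hG ⟨w, hw⟩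
    have hq : 𝕢 h ((⟨w + h, hw'⟩ : ℍ) : ℂ) = 𝕢 h ((⟨w, hw⟩ : ℍ) : ℂ) := by
      show 𝕢 h (w + h) = 𝕢 h w
      exact qParam_add_period hh w
    rw [hq] at e1
    exact e1.unique e2
  · have : Complex.im (w + h) ≤ 0 := by simpa using hw
    simp [ofComplex_apply_of_im_nonpos this, ofComplex_apply_of_im_nonpos hw]

theorem mem_analyticSubring_of_hasSum {G : ℍ → ℂ} {c : ℕ → ℂ} {h : ℝ} (hh : 0 < h)
    (hG : ∀ z : ℍ, HasSum (fun j => c j • 𝕢 h z ^ j) (G z)) (hGhol : MDiff G) :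
    G ∈ analyticSubring h :=
  mem_analyticSubring_of_periodic hh (periodic_of_hasSum hh.ne' hG) hGhol
    (isBoundedAtImInfty_of_hasSum_qExpansion hh hG)

theorem qExpansion_coeff_of_hasSum {G : ℍ → ℂ} {c : ℕ → ℂ} {h : ℝ} (hh : 0 < h)
    (hG : ∀ z : ℍ, HasSum (fun j => c j • 𝕢 h z ^ j) (G z)) (hGhol : MDiff G) (j : ℕ) :
    (qExpansion h G).coeff j = c j := by
  have hfanalytic : AnalyticAt ℂ (cuspFunction h G) 0 := mem_analyticSubring_of_hasSum hh hG hGhol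
  have h1 := (hasFPowerSeriesOnBall_cuspFunction hh hfanalytic hG).hasFPowerSeriesAt
  have h2 : HasFPowerSeriesAt (cuspFunction h G)
      (FormalMultilinearSeries.ofScalars ℂ fun m ↦ (qExpansion h G).coeff m) 0 := by
    simpa [qExpansion_coeff, div_eq_mul_inv, mul_comm]
      using hfanalytic.hasFPowerSeriesAt
  have := congr_arg (FormalMultilinearSeries.coeff · j) (h1.eq_formalMultilinearSeries h2)
  simpa [FormalMultilinearSeries.coeff_ofScalars] using this.symm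

/-- Main re-expansion lemma. -/
theorem expand_main {F G : ℍ → ℂ} {c : ℕ → ℂ}
    (hF : ∀ w : ℍ, HasSum (fun n => c n • 𝕢 1 w ^ n) (F w))
    {h : ℝ} (hh : 0 < h) (α : ℍ → ℍ) (e : ℕ) (he : 0 < e) (ξ : ℂ)
    (hα : ∀ z : ℍ, 𝕢 1 (α z) = ξ * 𝕢 h z ^ e)
    (hG : ∀ z, G z = F (α z)) (hGhol : MDiff G) :
    G ∈ analyticSubring h ∧ ∀ j, (qExpansion h G).coeff j = expandCoeff c e ξ j := by
  have hsum : ∀ z : ℍ, HasSum (fun j => expandCoeff c e ξ j • 𝕢 h z ^ j) (G z) := fun z => by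
    rw [hG z]
    exact hasSum_expand hF α e he ξ hα z
  exact ⟨mem_analyticSubring_of_hasSum hh hsum hGhol,
    fun j => qExpansion_coeff_of_hasSum hh hsum hGhol j⟩

end Fermat.Agent.S22T
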