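import Mathlib

/-!
Abstract algebra lemmas for the trace route to S22.
-/

namespace Fermat.Agent.S22T

open scoped Pointwise

/-- If a `ℤ`-submodule `M` of the dual of a `ℂ`-vector space `V` is finitely generated,
separating, and stable under precomposition with every element of `gens`, then the
`ℤ`-algebra generated by `gens` is a finite `ℤ`-module. -/
theorem finite_adjoin_of_lattice {V : Type*} [AddCommGroup V] [Module ℂ V]
    (gens : Set (Module.End ℂ V)) (M : Submodule ℤ (V →ₗ[ℂ] ℂ)) (hfg : M.FG)
    (hsep : ∀ v : V, (∀ φ ∈ M, φ v = 0) → v = 0)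
    (hstab : ∀ t ∈ gens, ∀ φ ∈ M, φ.comp t ∈ M) :
    Module.Finite ℤ (Algebra.adjoin ℤ gens) := by
  classical
  -- every element of the adjoin preserves `M`
  have hstab' : ∀ t ∈ Algebra.adjoin ℤ gens, ∀ φ ∈ M, φ.comp t ∈ M := by
    intro t ht
    induction ht using Algebra.adjoin_induction with
    | mem x hx => exact hstab x hx
    | algebraMap r =>
      intro φ hφ
      have : φ.comp (algebraMap ℤ (Module.End ℂ V) r) = r • φ := by
        ext v
        simp [Algebra.algebraMap_eq_smul_one]
      rw [this]
      exact M.smul_mem r hφ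
    | add x y _ _ hx hy =>
      intro φ hφ
      rw [LinearMap.comp_add]
      exact M.add_mem (hx φ hφ) (hy φ hφ)
    | mul x y _ _ hx hy =>
      intro φ hφ
      have : φ.comp (x * y) = (φ.comp x).comp y := rfl
      rw [this]
      exact hy _ (hx φ hφ)
  obtain ⟨s, hs⟩ := hfg
  haveI : Module.Finite ℤ M := Module.Finite.iff_fg.mpr ⟨s, hs⟩
  -- the ℤ-linear map `adjoin → (s → M)`
  let Φ : (Algebra.adjoin ℤ gens) →ₗ[ℤ] ({x // x ∈ s} → M) :=
    { toFun := fun t φ => ⟨φ.1.comp t.1, hstab' t.1 t.2 φ.1 (hs ▸ Submodule.subset_span (Finset.mem_coe.mpr φ.2))⟩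
      map_add' := fun a b => by
        funext φ
        apply Subtype.ext
        simp [LinearMap.comp_add]
      map_smul' := fun r t => by
        funext φ
        apply Subtype.ext
        ext v
        simp }
  have hΦ : Function.Injective Φ := by
    rw [injective_iff_map_eq_zero]
    intro t ht
    apply Subtype.ext
    apply LinearMap.ext
    intro v
    apply hsep
    intro φ hφ
    rw [← hs] at hφ
    induction hφ using Submodule.span_induction with
    | mem x hx =>
      have h1 := congrArg (fun F : ({x // x ∈ s} → M) =>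
        (((F ⟨x, hx⟩ : M) : V →ₗ[ℂ] ℂ)) v) ht
      simpa [Φ] using h1
    | zero => simp
    | add x y _ _ hx hy => simp [hx, hy]
    | smul r x _ hx => simp [hx]
  haveI : IsNoetherian ℤ ({x // x ∈ s} → M) :=
    isNoetherian_of_isNoetherianRing_of_finite ℤ _
  exact Module.Finite.of_injective Φ hΦ

/-- A family of functionals `φ n` on `V` that factor through a linear map `L : V → W` via
functionals `ψ n` on `W` taking values in a finitely generated `ℤ`-submodule `A ⊆ ℂ` on a
finite spanning family of `W` spans a finitely generated `ℤ`-module. -/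
theorem fg_span_of_factor {V W : Type*} [AddCommGroup V] [Module ℂ V]
    [AddCommGroup W] [Module ℂ W] {ι κ : Type*} [Finite κ]
    (L : V →ₗ[ℂ] W) (w : κ → W) (hw : Submodule.span ℂ (Set.range w) = ⊤)
    (A : Submodule ℤ ℂ) (hA : A.FG)
    (φ : ι → (V →ₗ[ℂ] ℂ)) (ψ : ι → (W →ₗ[ℂ] ℂ))
    (hφ : ∀ n, φ n = (ψ n).comp L) (hψ : ∀ n i, ψ n (w i) ∈ A) :
    (Submodule.span ℤ (Set.range φ)).FG := by
  classical
  haveI : Fintype κ := Fintype.ofFinite κ
  haveI : Module.Finite ℤ A := Module.Finite.iff_fg.mpr hA
  -- the submodule of functionals on `W` which are `A`-valued on the `w i`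
  let Ψ : Submodule ℤ (W →ₗ[ℂ] ℂ) :=
    { carrier := {ψ | ∀ i, ψ (w i) ∈ A}
      add_mem' := fun {a b} ha hb i => by
        simpa using A.add_mem (ha i) (hb i)
      zero_mem' := fun i => by simp
      smul_mem' := fun r a ha i => by
        simpa using A.smul_mem r (ha i) }
  -- evaluation on the spanning family is injective
  let ev : Ψ →ₗ[ℤ] (κ → A) :=
    { toFun := fun ψ i => ⟨ψ.1 (w i), ψ.2 i⟩
      map_add' := fun a b => by
        funext i
        apply Subtype.ext
        simp
      map_smul' := fun r a => by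
        funext i
        apply Subtype.ext
        simp }
  have hev : Function.Injective ev := by
    rw [injective_iff_map_eq_zero]
    intro ψ hψ0
    apply Subtype.ext
    apply LinearMap.ext_on_range hw
    intro i
    have := congrArg (fun F : κ → A => ((F i : A) : ℂ)) hψ0
    simpa [ev] using this
  haveI : IsNoetherian ℤ (κ → A) := isNoetherian_of_isNoetherianRing_of_finite ℤ _
  haveI : Module.Finite ℤ Ψ := Module.Finite.of_injective ev hev
  have hΨfg : Ψ.FG := Module.Finite.iff_fg.mp inferInstance
  -- precomposition with `L`, as a ℤ-linear map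
  let pre : (W →ₗ[ℂ] ℂ) →ₗ[ℤ] (V →ₗ[ℂ] ℂ) :=
    { toFun := fun ψ => ψ.comp L
      map_add' := fun a b => by simp [LinearMap.add_comp]
      map_smul' := fun r a => by
        ext v
        simp }
  have himg : (Ψ.map pre).FG := hΨfg.map pre
  have hle : Submodule.span ℤ (Set.range φ) ≤ Ψ.map pre := by
    rw [Submodule.span_le]
    rintro _ ⟨n, rfl⟩
    exact ⟨ψ n, hψ n, (hφ n).symm⟩
  haveI : IsNoetherian ℤ (Ψ.map pre) :=
    haveI : Module.Finite ℤ (Ψ.map pre) := Module.Finite.iff_fg.mpr himg
    isNoetherian_of_isNoetherianRing_of_finite ℤ _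
  exact Submodule.FG.of_le himg hle

end Fermat.Agent.S22T
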