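import Mathlib
import Fermat.Prelude.Def_ModularForm_HeckeOperator

/-!
Hermite decomposition `[N 0; 0 1] * g = γ' * [a b; 0 d]` for `g ∈ SL(2, ℤ)`.
-/

open UpperHalfPlane ModularForm CongruenceSubgroup
open scoped MatrixGroups ModularForm Manifold

namespace Fermat.Agent.S22T

/-- Integer-level Hermite decomposition data. -/
theorem hermite_int (N : ℕ) (hN : 0 < N) (g : SL(2, ℤ)) :
    ∃ (γ : SL(2, ℤ)) (a d : ℕ) (b : ℤ), 0 < a ∧ 0 < d ∧ a * d = N ∧
      (g ∉ Gamma0 N → a < N) ∧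
      (N : ℤ) * g 0 0 = γ 0 0 * a ∧ (N : ℤ) * g 0 1 = γ 0 0 * b + γ 0 1 * d ∧
      g 1 0 = γ 1 0 * a ∧ g 1 1 = γ 1 0 * b + γ 1 1 * d := by
  set p : ℤ := g 0 0 with hp
  set q : ℤ := g 0 1 with hq
  set r : ℤ := g 1 0 with hr
  set s : ℤ := g 1 1 with hs
  have hdet : p * s - q * r = 1 := by
    have := g.det_coe
    rw [Matrix.det_fin_two] at this
    simpa [hp, hq, hr, hs] using this
  set X : ℤ := N * p with hX
  set a : ℕ := Int.gcd X r with ha
  have hNz : (N : ℤ) ≠ 0 := by exact_mod_cast hN.ne'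
  have ha_pos : 0 < a := by
    rw [ha, Int.gcd_pos_iff]
    by_contra hcon
    push Not at hcon
    obtain ⟨h1, h2⟩ := hcon
    have hp0 : p = 0 := by
      rcases mul_eq_zero.mp h1 with h | h
      · exact absurd h hNz
      · exact h
    rw [hp0, h2] at hdet
    simp at hdet
  have haz : (a : ℤ) ≠ 0 := by exact_mod_cast ha_pos.ne'
  obtain ⟨u, hu⟩ : (a : ℤ) ∣ X := Int.gcd_dvd_left X r
  obtain ⟨v, hv⟩ : (a : ℤ) ∣ r := Int.gcd_dvd_right X r
  set x : ℤ := Int.gcdA X r with hx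
  set y : ℤ := Int.gcdB X r with hy
  have hbez : (a : ℤ) = X * x + r * y := Int.gcd_eq_gcd_ab X r
  have hbez' : u * x + v * y = 1 := by
    have h1 : (a : ℤ) * (u * x + v * y) = a * 1 := by
      rw [mul_one]
      conv_rhs => rw [hbez]
      rw [hu, hv]
      ring
    exact mul_left_cancel₀ haz h1
  -- the matrix γ
  let γ : SL(2, ℤ) := ⟨!![u, -y; v, x], by
    rw [Matrix.det_fin_two_of]
    linarith⟩
  set b : ℤ := x * (N * q) + y * s with hb
  set d' : ℤ := -v * (N * q) + u * s with hd'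
  have had : (a : ℤ) * d' = N := by
    have : (a : ℤ) * d' = -(a * v) * (N * q) + (a * u) * s := by rw [hd']; ring
    rw [this, ← hu, ← hv, hX]
    have : -r * (↑N * q) + ↑N * p * s = N * (p * s - q * r) := by ring
    rw [this, hdet, mul_one]
  have hd'pos : 0 < d' := by
    have h1 : (0 : ℤ) < a * d' := by rw [had]; exact_mod_cast hN
    exact (pos_iff_pos_of_mul_pos h1).mp (by exact_mod_cast ha_pos)
  obtain ⟨d, hd⟩ : ∃ d : ℕ, (d : ℤ) = d' := ⟨d'.toNat, Int.toNat_of_nonneg hd'pos.le⟩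
  have hdpos : 0 < d := by
    have : (0 : ℤ) < d := by rw [hd]; exact hd'pos
    exact_mod_cast this
  have hadN : a * d = N := by
    have : ((a * d : ℕ) : ℤ) = N := by
      push_cast
      rw [hd, had]
    exact_mod_cast this
  refine ⟨γ, a, d, b, ha_pos, hdpos, hadN, ?_, ?_, ?_, ?_, ?_⟩
  · intro hg
    have hle : a ≤ N := Nat.le_of_dvd hN ⟨d, hadN.symm⟩
    rcases Nat.lt_or_ge a N with h | h
    · exact h
    · exfalso
      have haN : a = N := le_antisymm hle h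
      apply hg
      rw [Gamma0_mem]
      have : ((g 1 0 : ℤ) : ZMod N) = ((a : ℤ) * v : ℤ) := by
        rw [← hv]
      rw [this, haN]
      push_cast
      simp
  · show (N : ℤ) * p = u * a
    rw [← hX, hu]
    ring
  · show (N : ℤ) * q = u * b + (-y) * d
    rw [hd, hb, hd']
    have : u * (x * (↑N * q) + y * s) + -y * (-v * (↑N * q) + u * s)
        = (u * x + v * y) * (N * q) := by ring
    rw [this, hbez', one_mul]
  · show r = v * a
    rw [hv]
    ring
  · show s = v * b + x * d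
    rw [hd, hb, hd']
    have : v * (x * (↑N * q) + y * s) + x * (-v * (↑N * q) + u * s)
        = (u * x + v * y) * s := by ring
    rw [this, hbez', one_mul]

/-- Hermite decomposition in `GL (Fin 2) ℝ`. -/
theorem hermite_GL (N : ℕ) (hN : 0 < N) (g : SL(2, ℤ)) :
    ∃ (γ : SL(2, ℤ)) (a d : ℕ) (b : ℤ) (_ : 0 < a) (_ : 0 < d) (had : (a : ℝ) * d ≠ 0)
      (hN1 : (N : ℝ) * 1 ≠ 0), a * d = N ∧ (g ∉ Gamma0 N → a < N) ∧
      upperTriangularGL N 0 1 hN1 * Matrix.SpecialLinearGroup.mapGL ℝ g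
        = Matrix.SpecialLinearGroup.mapGL ℝ γ * upperTriangularGL a b d had := by
  obtain ⟨γ, a, d, b, ha, hd, had, hlt, h00, h01, h10, h11⟩ := hermite_int N hN g
  have had' : (a : ℝ) * d ≠ 0 := by
    have : (0 : ℝ) < a * d := by positivity
    exact this.ne'
  have hN1 : (N : ℝ) * 1 ≠ 0 := by
    have : (0 : ℝ) < N * 1 := by positivity
    exact this.ne'
  refine ⟨γ, a, d, b, ha, hd, had', hN1, had, hlt, ?_⟩
  apply Matrix.GeneralLinearGroup.ext
  intro i j
  have e00 : ((N : ℤ) * g 0 0 : ℝ) = (γ 0 0 * a : ℤ) := by exact_mod_cast congrArg (Int.cast : ℤ → ℝ) h00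
  have e01 : ((N : ℤ) * g 0 1 : ℝ) = (γ 0 0 * b + γ 0 1 * d : ℤ) := by
    exact_mod_cast congrArg (Int.cast : ℤ → ℝ) h01
  have e10 : ((g 1 0 : ℤ) : ℝ) = (γ 1 0 * a : ℤ) := by exact_mod_cast congrArg (Int.cast : ℤ → ℝ) h10
  have e11 : ((g 1 1 : ℤ) : ℝ) = (γ 1 0 * b + γ 1 1 * d : ℤ) := by
    exact_mod_cast congrArg (Int.cast : ℤ → ℝ) h11
  push_cast at e00 e01 e10 e11
  fin_cases i <;> fin_cases j <;>
    simp [Matrix.mul_apply, Fin.sum_univ_two, val_upperTriangularGL] <;>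
    linarith

end Fermat.Agent.S22T
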