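import Mathlib
import Fermat.Prelude.Def_ModularForm_HeckeOperator
import Fermat.Agent.S22T.Expand
import Fermat.Agent.S22T.DeltaInt
import Fermat.Agent.S22T.Hermite

open UpperHalfPlane ModularForm CongruenceSubgroup
open scoped MatrixGroups ModularForm Manifold

namespace Fermat.Agent.S22T

local notation "𝕢" => Function.Periodic.qParam

theorem det_upperTriangularGL (a b d : ℝ) (had : a * d ≠ 0) :
    ((upperTriangularGL a b d had).det : ℝ) = a * d := by
  rw [Matrix.GeneralLinearGroup.val_det_apply, val_upperTriangularGL, Matrix.det_fin_two_of]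
  ring

theorem denom_upperTriangularGL (a b d : ℝ) (had : a * d ≠ 0) (τ : ℍ) :
    UpperHalfPlane.denom (upperTriangularGL a b d had) τ = d := by
  simp [UpperHalfPlane.denom, val_upperTriangularGL]

theorem coe_upperTriangularGL_smul (a b d : ℝ) (had : a * d ≠ 0) (hpos : 0 < a * d) (τ : ℍ) :
    ((upperTriangularGL a b d had • τ : ℍ) : ℂ) = ((a : ℂ) * τ + b) / d := by
  rw [UpperHalfPlane.coe_smul_of_det_pos (by rw [det_upperTriangularGL]; exact hpos)]
  simp [UpperHalfPlane.num, UpperHalfPlane.denom, val_upperTriangularGL]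

theorem σ_upperTriangularGL (a b d : ℝ) (had : a * d ≠ 0) (hpos : 0 < a * d) :
    UpperHalfPlane.σ (upperTriangularGL a b d had) = .refl ℝ ℂ := by
  rw [UpperHalfPlane.σ, if_pos (by rw [det_upperTriangularGL]; exact hpos)]

theorem slash_upperTriangularGL_apply (k : ℤ) (a b d : ℝ) (had : a * d ≠ 0) (hpos : 0 < a * d)
    (f : ℍ → ℂ) (τ : ℍ) :
    (f ∣[k] upperTriangularGL a b d had) τ
      = f (upperTriangularGL a b d had • τ) * ((a * d : ℝ) : ℂ) ^ (k - 1) * (d : ℂ) ^ (-k) := by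
  rw [ModularForm.slash_apply, σ_upperTriangularGL a b d had hpos, det_upperTriangularGL,
    denom_upperTriangularGL, abs_of_pos hpos]
  simp only [ContinuousAlgEquiv.refl_apply]

theorem discriminant_slash_SL (γ : SL(2, ℤ)) :
    (ModularForm.discriminant ∣[(12 : ℤ)] (Matrix.SpecialLinearGroup.mapGL ℝ γ)) =
      ModularForm.discriminant := by
  have := SlashInvariantFormClass.slash_action_eq CuspForm.discriminant
    (Matrix.SpecialLinearGroup.mapGL ℝ γ) ⟨γ, rfl⟩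
  rwa [CuspForm.coe_discriminant] at this


theorem SL_slash_mapGL (k : ℤ) (f : ℍ → ℂ) (γ : SL(2, ℤ)) :
    f ∣[k] γ = f ∣[k] (Matrix.SpecialLinearGroup.mapGL ℝ γ) := by
  rw [ModularForm.SL_slash]
  rfl

/-- the function `N^12 • (Δ ∣[12] diag(N,1))`. -/
noncomputable def thetaFun (N : ℕ) : ℍ → ℂ :=
  (N : ℂ) ^ 12 • (ModularForm.discriminant ∣[(12 : ℤ)] ModularForm.heckeDiagMatrix N)

theorem heckeDiagMatrix_eq (N : ℕ) (hN1 : (N : ℝ) * 1 ≠ 0) :
    ModularForm.heckeDiagMatrix N = upperTriangularGL N 0 1 hN1 := by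
  have hN : N ≠ 0 := by
    rintro rfl
    simp at hN1
  simp [heckeDiagMatrix, hN]

/-- Hermite decomposition in `GL (Fin 2) ℝ`, with the characterisation of `Γ₀(N)`. -/
theorem hermite_GL_full (N : ℕ) (hN : 0 < N) (g : SL(2, ℤ)) :
    ∃ (γ : SL(2, ℤ)) (a d : ℕ) (b : ℤ) (_ : 0 < a) (_ : 0 < d) (had : (a : ℝ) * d ≠ 0)
      (hN1 : (N : ℝ) * 1 ≠ 0), a * d = N ∧ (g ∉ Gamma0 N → a < N) ∧ (g ∈ Gamma0 N → a = N) ∧
      upperTriangularGL N 0 1 hN1 * Matrix.SpecialLinearGroup.mapGL ℝ g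
        = Matrix.SpecialLinearGroup.mapGL ℝ γ * upperTriangularGL a b d had := by
  obtain ⟨γ, a, d, b, ha, hd, had, hlt, h00, h01, h10, h11⟩ := hermite_int N hN g
  have had' : (a : ℝ) * d ≠ 0 := by
    have : (0 : ℝ) < a * d := by positivity
    exact this.ne'
  have hN1 : (N : ℝ) * 1 ≠ 0 := by
    have : (0 : ℝ) < N * 1 := by positivity
    exact this.ne'
  refine ⟨γ, a, d, b, ha, hd, had', hN1, had, hlt, ?_, ?_⟩
  · intro hg
    rw [Gamma0_mem] at hg
    have hNdvd : (N : ℤ) ∣ g 1 0 := by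
      rwa [← ZMod.intCast_zmod_eq_zero_iff_dvd]
    have haz : (a : ℤ) ≠ 0 := by exact_mod_cast ha.ne'
    have hNad : (N : ℤ) = a * d := by exact_mod_cast had.symm
    -- d ∣ γ 0 0
    have h1 : (d : ℤ) * g 0 0 = γ 0 0 := by
      have : (a : ℤ) * (d * g 0 0) = a * γ 0 0 := by
        rw [← mul_assoc, ← hNad, h00]; ring
      exact mul_left_cancel₀ haz this
    -- d ∣ γ 1 0
    obtain ⟨m, hm⟩ := hNdvd
    have h2 : (d : ℤ) * m = γ 1 0 := by
      have : (a : ℤ) * (d * m) = a * γ 1 0 := by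
        rw [← mul_assoc, ← hNad, ← hm, h10]; ring
      exact mul_left_cancel₀ haz this
    have hdet : γ 0 0 * γ 1 1 - γ 0 1 * γ 1 0 = 1 := by
      have := γ.det_coe
      rw [Matrix.det_fin_two] at this
      exact this
    have hd1 : (d : ℤ) ∣ 1 := by
      rw [← hdet, ← h1, ← h2]
      exact ⟨g 0 0 * γ 1 1 - γ 0 1 * m, by ring⟩
    have hd1' : d = 1 := by
      have := Int.eq_one_of_dvd_one (by positivity) hd1
      exact_mod_cast this
    rw [hd1', mul_one] at had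
    exact had
  apply Matrix.GeneralLinearGroup.ext
  intro i j
  have e00 : ((N : ℤ) * g 0 0 : ℝ) = (γ 0 0 * a : ℤ) := by exact_mod_cast congrArg (Int.cast : ℤ → ℝ) h00
  have e01 : ((N : ℤ) * g 0 1 : ℝ) = (γ 0 0 * b + γ 0 1 * d : ℤ) := by
    exact_mod_cast congrArg (Int.cast : ℤ → ℝ) h01
  have e10 : ((g 1 0 : ℤ) : ℝ) = (γ 1 0 * a : ℤ) := by exact_mod_cast congrArg (Int.cast : ℤ → ℝ) h10
  have e11 : ((g 1 1 : ℤ) : ℝ) = (γ 1 0 * b + γ 1 1 * d : ℤ) := by
    exact_mod_cast congrArg (Int.cast : ℤ → ℝ) h11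
  push_cast at e00 e01 e10 e11
  fin_cases i <;> fin_cases j <;>
    simp [Matrix.mul_apply, Fin.sum_univ_two, val_upperTriangularGL] <;>
    linarith

theorem thetaFun_slash_aux (N : ℕ) (hN : 0 < N) (g : SL(2, ℤ)) :
    ∃ (a d : ℕ) (b : ℤ) (_ : 0 < a) (_ : 0 < d) (had : (a : ℝ) * d ≠ 0),
      a * d = N ∧ (g ∉ Gamma0 N → a < N) ∧ (g ∈ Gamma0 N → a = N) ∧
      ∀ τ : ℍ, (thetaFun N ∣[(12 : ℤ)] g) τ =
        (N : ℂ) ^ 11 * (a : ℂ) ^ 12 *
          ModularForm.discriminant (ModularForm.upperTriangularGL a b d had • τ) := by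
  obtain ⟨γ, a, d, b, ha, hd, had, hN1, hadN, hlt, hmem, hmat⟩ := hermite_GL_full N hN g
  refine ⟨a, d, b, ha, hd, had, hadN, hlt, hmem, ?_⟩
  · intro τ
    have hpos : (0 : ℝ) < a * d := by positivity
    have hdC : (d : ℂ) ≠ 0 := by exact_mod_cast hd.ne'
    rw [SL_slash_mapGL, thetaFun, ModularForm.smul_slash, heckeDiagMatrix_eq N hN1,
      ← SlashAction.slash_mul, hmat, SlashAction.slash_mul, discriminant_slash_SL]
    have hσ : UpperHalfPlane.σ (Matrix.SpecialLinearGroup.mapGL ℝ g) = .refl ℝ ℂ := by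
      rw [UpperHalfPlane.σ, if_pos]
      simp
    rw [hσ]
    simp only [ContinuousAlgEquiv.refl_apply, Pi.smul_apply, smul_eq_mul]
    rw [slash_upperTriangularGL_apply 12 a b d had hpos]
    have hNC : (N : ℂ) = a * d := by exact_mod_cast hadN.symm
    push_cast
    rw [hNC]
    have h12 : (d : ℂ) ^ (-(12 : ℤ)) = ((d : ℂ) ^ 12)⁻¹ := by
      rw [zpow_neg]
      norm_cast
    rw [h12]
    field_simp


/-- `ζ_N = exp(2πi/N)`. -/
noncomputable def zetaN (N : ℕ) : ℂ := Complex.exp (2 * Real.pi * Complex.I / N)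

/-- The ring `ℤ[ζ_N] ⊆ ℂ`. -/
noncomputable def zetaRing (N : ℕ) : Subring ℂ :=
  (Algebra.adjoin ℤ {Complex.exp (2 * Real.pi * Complex.I / N)}).toSubring

theorem zetaN_mem (N : ℕ) : zetaN N ∈ zetaRing N :=
  Algebra.subset_adjoin (Set.mem_singleton _)

theorem zetaN_pow_eq_one (N : ℕ) (hN : 0 < N) : zetaN N ^ N = 1 :=
  (Complex.isPrimitiveRoot_exp N hN.ne').pow_eq_one

theorem zetaN_ne_zero (N : ℕ) : zetaN N ≠ 0 := Complex.exp_ne_zero _

theorem zetaN_inv_mem (N : ℕ) (hN : 0 < N) : (zetaN N)⁻¹ ∈ zetaRing N := by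
  have h : (zetaN N)⁻¹ = zetaN N ^ (N - 1) := by
    have h1 : zetaN N * zetaN N ^ (N - 1) = 1 := by
      rw [← pow_succ', Nat.sub_add_cancel hN, zetaN_pow_eq_one N hN]
    exact inv_eq_of_mul_eq_one_right h1
  rw [h]
  exact Subring.pow_mem _ (zetaN_mem N) _

theorem zetaN_zpow_mem (N : ℕ) (hN : 0 < N) (m : ℤ) : zetaN N ^ m ∈ zetaRing N := by
  rcases m with m | m
  · simpa using Subring.pow_mem _ (zetaN_mem N) m
  · rw [zpow_negSucc, ← inv_pow]
    exact Subring.pow_mem _ (zetaN_inv_mem N hN) _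

theorem zetaRing_finite (N : ℕ) (hN : 0 < N) : Module.Finite ℤ (zetaRing N) := by
  have hint : IsIntegral ℤ (Complex.exp (2 * Real.pi * Complex.I / N)) :=
    (Complex.isPrimitiveRoot_exp N hN.ne').isIntegral hN
  have h := Algebra.finite_adjoin_simple_of_isIntegral hint
  let e : (Algebra.adjoin ℤ {Complex.exp (2 * Real.pi * Complex.I / N)}) →ₗ[ℤ] (zetaRing N) :=
    { toFun := fun x => ⟨x.1, x.2⟩
      map_add' := fun _ _ => rfl
      map_smul' := fun m x => by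
        apply Subtype.ext
        simp }
  exact Module.Finite.of_surjective e (fun x => ⟨⟨x.1, x.2⟩, rfl⟩)

theorem qParam_upperTriangular (N a d : ℕ) (b : ℤ) (ha : 0 < a) (hd : 0 < d) (hadN : a * d = N)
    (had : (a : ℝ) * d ≠ 0) (τ : ℍ) :
    𝕢 1 ((upperTriangularGL a b d had • τ : ℍ) : ℂ)
      = zetaN N ^ ((a : ℤ) * b) * 𝕢 (N : ℝ) τ ^ (a ^ 2) := by
  have hpos : (0 : ℝ) < a * d := by positivity
  rw [coe_upperTriangularGL_smul a b d had hpos]
  have haC : (a : ℂ) ≠ 0 := by exact_mod_cast ha.ne'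
  have hdC : (d : ℂ) ≠ 0 := by exact_mod_cast hd.ne'
  have hNC : (N : ℂ) = a * d := by exact_mod_cast hadN.symm
  simp only [Function.Periodic.qParam, zetaN]
  rw [← Complex.exp_int_mul, ← Complex.exp_nat_mul, ← Complex.exp_add]
  congr 1
  push_cast
  rw [hNC]
  field_simp
  ring


theorem hasSum_discriminant (w : ℍ) :
    HasSum (fun n => ((tau n : ℤ) : ℂ) • 𝕢 (1 : ℝ) w ^ n) (ModularForm.discriminant w) := by
  have h := ModularForm.hasSum_qExpansion (f := CuspForm.discriminant) (h := 1) one_pos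
    one_mem_strictPeriods_SL w
  simp only [CuspForm.coe_discriminant, qExpansion_discriminant_coeff] at h
  simpa [smul_eq_mul] using h

theorem mdiff_discriminant_comp (a d : ℕ) (b : ℤ) (ha : 0 < a) (hd : 0 < d)
    (had : (a : ℝ) * d ≠ 0) :
    MDiff (fun τ : ℍ => ModularForm.discriminant (upperTriangularGL a b d had • τ)) := by
  have hpos : (0 : ℝ) < a * d := by positivity
  have h1 : MDiff (fun τ : ℍ => upperTriangularGL a b d had • τ) :=
    UpperHalfPlane.mdifferentiable_smul (by rw [det_upperTriangularGL]; exact hpos)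
  have h2 : MDiff (ModularForm.discriminant : ℍ → ℂ) := by
    have := CuspForm.discriminant.holo'
    exact this
  exact h2.comp h1

/-- Main expansion result for the conjugates of `thetaFun N`. -/
theorem thetaFun_slash_expansion (N : ℕ) (hN : 0 < N) (g : SL(2, ℤ)) :
    ∃ (a d : ℕ) (b : ℤ), 0 < a ∧ 0 < d ∧ a * d = N ∧ (g ∉ Gamma0 N → a < N) ∧
      (g ∈ Gamma0 N → a = N) ∧
      (thetaFun N ∣[(12 : ℤ)] g) ∈ analyticSubring N ∧
      ∀ j, (qExpansion N (thetaFun N ∣[(12 : ℤ)] g)).coeff j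
        = expandCoeff (fun n => (N : ℂ) ^ 11 * (a : ℂ) ^ 12 * ((tau n : ℤ) : ℂ)) (a ^ 2)
            (zetaN N ^ ((a : ℤ) * b)) j := by
  obtain ⟨a, d, b, ha, hd, had, hadN, hlt, hmem, hfun⟩ := thetaFun_slash_aux N hN g
  refine ⟨a, d, b, ha, hd, hadN, hlt, hmem, ?_⟩
  have hNR : (0 : ℝ) < N := by exact_mod_cast hN
  have hF : ∀ w : ℍ, HasSum (fun n => ((N : ℂ) ^ 11 * (a : ℂ) ^ 12 * ((tau n : ℤ) : ℂ)) • 𝕢 (1 : ℝ) w ^ n)
      ((N : ℂ) ^ 11 * (a : ℂ) ^ 12 * ModularForm.discriminant w) := by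
    intro w
    have := (hasSum_discriminant w).mul_left ((N : ℂ) ^ 11 * (a : ℂ) ^ 12)
    simpa [smul_eq_mul, mul_assoc] using this
  have hMD : MDiff (thetaFun N ∣[(12 : ℤ)] g) := by
    have h1 := mdiff_discriminant_comp a d b ha hd had
    have h2 : (thetaFun N ∣[(12 : ℤ)] g) = fun τ => ((N : ℂ) ^ 11 * (a : ℂ) ^ 12) •
        ModularForm.discriminant (upperTriangularGL a b d had • τ) := by
      funext τ
      rw [hfun τ, smul_eq_mul]
    rw [h2]
    exact h1.const_smul _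
  exact expand_main (F := fun w => (N : ℂ) ^ 11 * (a : ℂ) ^ 12 * ModularForm.discriminant w)
    hF hNR (fun τ => upperTriangularGL a b d had • τ) (a ^ 2) (by positivity)
    (zetaN N ^ ((a : ℤ) * b)) (fun z => qParam_upperTriangular N a d b ha hd hadN had z)
    (fun z => hfun z) hMD


theorem thetaFun_slash_one (N : ℕ) : thetaFun N ∣[(12 : ℤ)] (1 : SL(2, ℤ)) = thetaFun N := by
  rw [SL_slash_mapGL, map_one, SlashAction.slash_one]

theorem zetaN_zpow_N_mul (N : ℕ) (hN : 0 < N) (b : ℤ) : zetaN N ^ ((N : ℤ) * b) = 1 := by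
  rw [zpow_mul, zpow_natCast, zetaN_pow_eq_one N hN, one_zpow]

/-- The `q_N`-expansion of `thetaFun N = N^23 Δ(N τ)`. -/
theorem coeff_qExpansion_thetaFun (N : ℕ) (hN : 0 < N) (j : ℕ) :
    (qExpansion N (thetaFun N)).coeff j
      = if N ^ 2 ∣ j then (N : ℂ) ^ 23 * ((tau (j / N ^ 2) : ℤ) : ℂ) else 0 := by
  obtain ⟨a, d, b, ha, hd, hadN, hlt, hmem, -, hco⟩ := thetaFun_slash_expansion N hN 1
  have haN : a = N := hmem (Subgroup.one_mem _)
  rw [thetaFun_slash_one] at hco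
  rw [hco j, expandCoeff, haN]
  split_ifs with h
  · rw [zetaN_zpow_N_mul N hN b, one_pow, mul_one, ← pow_add]
  · rfl

theorem thetaFun_mem (N : ℕ) (hN : 0 < N) : thetaFun N ∈ analyticSubring N := by
  obtain ⟨a, d, b, ha, hd, hadN, hlt, hmem, hm, hco⟩ := thetaFun_slash_expansion N hN 1
  rwa [thetaFun_slash_one] at hm

/-- All conjugates of `thetaFun N` have `q_N`-expansion with coefficients in `ℤ[ζ_N]`. -/
theorem qExpansion_thetaFun_slash_mem (N : ℕ) (hN : 0 < N) (g : SL(2, ℤ)) :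
    ∃ Θ : PowerSeries (zetaRing N),
      qExpansion N (thetaFun N ∣[(12 : ℤ)] g) = Θ.map (zetaRing N).subtype := by
  obtain ⟨a, d, b, ha, hd, hadN, hlt, hmem, hm, hco⟩ := thetaFun_slash_expansion N hN g
  have hmemR : ∀ j, expandCoeff (fun n => (N : ℂ) ^ 11 * (a : ℂ) ^ 12 * ((tau n : ℤ) : ℂ)) (a ^ 2)
            (zetaN N ^ ((a : ℤ) * b)) j ∈ zetaRing N := by
    intro j
    rw [expandCoeff]
    split_ifs with h
    · refine Subring.mul_mem _ (Subring.mul_mem _ (Subring.mul_mem _ ?_ ?_) ?_) ?_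
      · exact Subring.pow_mem _ (natCast_mem _ N) _
      · exact Subring.pow_mem _ (natCast_mem _ a) _
      · exact intCast_mem _ _
      · exact Subring.pow_mem _ (zetaN_zpow_mem N hN _) _
    · exact Subring.zero_mem _
  refine ⟨PowerSeries.mk fun j => ⟨_, hmemR j⟩, ?_⟩
  ext j
  rw [hco j, PowerSeries.coeff_map, PowerSeries.coeff_mk]
  rfl

/-- For `g ∉ Γ₀(N)`, the `q_N`-expansion of `t - t∣g` is `u X^s W` with `u ≠ 0` and
`W ∈ 1 + X ℤ[ζ_N]⟦X⟧`. -/
theorem qExpansion_thetaFun_sub_slash (N : ℕ) (hN : 0 < N) (g : SL(2, ℤ))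
    (hg : g ∉ CongruenceSubgroup.Gamma0 N) :
    ∃ (u : ℂ) (s : ℕ) (W : PowerSeries (zetaRing N)), u ≠ 0 ∧ PowerSeries.constantCoeff W = 1 ∧
      qExpansion N (thetaFun N) - qExpansion N (thetaFun N ∣[(12 : ℤ)] g) =
        PowerSeries.C u * PowerSeries.X ^ s * W.map (zetaRing N).subtype := by
  obtain ⟨a, d, b, ha, hd, hadN, hlt, -, hm, hco⟩ := thetaFun_slash_expansion N hN g
  have haN : a < N := hlt hg
  set ξ : ℂ := zetaN N ^ ((a : ℤ) * b) with hξ
  have hξ0 : ξ ≠ 0 := zpow_ne_zero _ (zetaN_ne_zero N)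
  have hξmem : ξ ∈ zetaRing N := zetaN_zpow_mem N hN _
  have hξinv : ξ⁻¹ ∈ zetaRing N := by
    rw [hξ, ← zpow_neg]
    exact zetaN_zpow_mem N hN _
  have hNC : (N : ℂ) ≠ 0 := by exact_mod_cast hN.ne'
  have haC : (a : ℂ) ≠ 0 := by exact_mod_cast ha.ne'
  have hNad : (N : ℂ) = a * d := by exact_mod_cast hadN.symm
  have ha2 : 0 < a ^ 2 := by positivity
  have haN2 : a ^ 2 < N ^ 2 := Nat.pow_lt_pow_left haN (by norm_num)
  -- the coefficients of W
  let w : ℕ → ℂ := fun n =>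
    (if a ^ 2 ∣ n then ((tau (n / a ^ 2 + 1) : ℤ) : ℂ) * ξ ^ (n / a ^ 2) else 0)
      - (if N ^ 2 ∣ n + a ^ 2 then (d : ℂ) ^ 12 * ((tau ((n + a ^ 2) / N ^ 2) : ℤ) : ℂ) * ξ⁻¹ else 0)
  have hw : ∀ n, w n ∈ zetaRing N := by
    intro n
    refine Subring.sub_mem _ ?_ ?_
    · split_ifs
      · exact Subring.mul_mem _ (intCast_mem _ _) (Subring.pow_mem _ hξmem _)
      · exact Subring.zero_mem _
    · split_ifs
      · exact Subring.mul_mem _ (Subring.mul_mem _ (Subring.pow_mem _ (natCast_mem _ d) _)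
          (intCast_mem _ _)) hξinv
      · exact Subring.zero_mem _
  refine ⟨-((N : ℂ) ^ 11 * (a : ℂ) ^ 12 * ξ), a ^ 2, PowerSeries.mk fun n => ⟨w n, hw n⟩,
    ?_, ?_, ?_⟩
  · exact neg_ne_zero.mpr (mul_ne_zero (mul_ne_zero (pow_ne_zero _ hNC) (pow_ne_zero _ haC)) hξ0)
  · rw [← PowerSeries.coeff_zero_eq_constantCoeff_apply, PowerSeries.coeff_mk]
    apply Subtype.ext
    show w 0 = 1
    simp only [w]
    have h1 : ¬ N ^ 2 ∣ 0 + a ^ 2 := by
      rw [zero_add]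
      exact Nat.not_dvd_of_pos_of_lt ha2 haN2
    rw [if_pos (dvd_zero _), if_neg h1]
    simp [tau_one]
  · ext j
    rw [map_sub, coeff_qExpansion_thetaFun N hN j, hco j, mul_assoc, PowerSeries.coeff_C_mul,
      PowerSeries.coeff_X_pow_mul', expandCoeff]
    by_cases hj : a ^ 2 ≤ j
    · rw [if_pos hj, PowerSeries.coeff_map, PowerSeries.coeff_mk]
      show _ = _ * w (j - a ^ 2)
      obtain ⟨n, rfl⟩ : ∃ n, j = n + a ^ 2 := ⟨j - a ^ 2, (Nat.sub_add_cancel hj).symm⟩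
      rw [Nat.add_sub_cancel]
      simp only [w]
      have hdvd : a ^ 2 ∣ n + a ^ 2 ↔ a ^ 2 ∣ n := by
        rw [Nat.dvd_add_left (dvd_refl _)]
      have hdiv : (n + a ^ 2) / a ^ 2 = n / a ^ 2 + 1 := Nat.add_div_right n ha2
      by_cases h1 : N ^ 2 ∣ n + a ^ 2 <;> by_cases h2 : a ^ 2 ∣ n
      · rw [if_pos h1, if_pos (hdvd.mpr h2), if_pos h2, if_pos h1, hdiv, hNad]
        field_simp
        ring
      · rw [if_pos h1, if_neg (fun h => h2 (hdvd.mp h)), if_neg h2, if_pos h1, hNad]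
        field_simp
        ring
      · rw [if_neg h1, if_pos (hdvd.mpr h2), if_pos h2, if_neg h1, hdiv]
        field_simp
        ring
      · rw [if_neg h1, if_neg (fun h => h2 (hdvd.mp h)), if_neg h2, if_neg h1]
        ring
    · rw [if_neg hj, mul_zero]
      push Not at hj
      have hjN : j < N ^ 2 := hj.trans haN2
      by_cases h1 : N ^ 2 ∣ j <;> by_cases h2 : a ^ 2 ∣ j
      · have : j = 0 := Nat.eq_zero_of_dvd_of_lt h1 hjN
        subst this
        simp [tau_zero]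
      · have : j = 0 := Nat.eq_zero_of_dvd_of_lt h1 hjN
        subst this
        simp [tau_zero]
      · have : j = 0 := Nat.eq_zero_of_dvd_of_lt h2 hj
        subst this
        simp [tau_zero]
      · rw [if_neg h1, if_neg h2, sub_zero]

end Fermat.Agent.S22T
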